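/-
Level-one valence package, part 3 (helper80).

The period pair `(c * z, c)` attached to `z : ℍ`, `c ≠ 0`, and its lattice sums:
`(periodPairOf c hc z).G k = (c ^ k)⁻¹ * (2 * riemannZeta k * E_k z)` for `k ≥ 3`.
-/
import Mathlib

set_option autoImplicit false

open UpperHalfPlane ModularForm EisensteinSeries MatrixGroups

namespace Fermat.Agent.LevelOne_helper80

/-- The period pair `(c z, c)`. -/
noncomputable def periodPairOf (c : ℂ) (hc : c ≠ 0) (z : ℍ) : PeriodPair where
  ω₁ := c * z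
  ω₂ := c
  indep := by
    rw [LinearIndependent.pair_iff]
    intro s t hst
    have h1 : c * ((s : ℂ) * z + t) = 0 := by
      simp only [Complex.real_smul] at hst
      rw [← hst]; ring
    have h2 : (s : ℂ) * z + t = 0 := by
      rcases mul_eq_zero.mp h1 with h | h
      · exact absurd h hc
      · exact h
    have him := congrArg Complex.im h2
    simp at him
    have hs : s = 0 := by
      rcases him with h | h
      · exact h
      · exact absurd h z.im_ne_zero
    subst hs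
    simp at h2
    exact ⟨rfl, h2⟩

@[simp] theorem periodPairOf_ω₁ (c : ℂ) (hc : c ≠ 0) (z : ℍ) :
    (periodPairOf c hc z).ω₁ = c * z := rfl

@[simp] theorem periodPairOf_ω₂ (c : ℂ) (hc : c ≠ 0) (z : ℍ) :
    (periodPairOf c hc z).ω₂ = c := rfl

theorem G_periodPairOf (c : ℂ) (hc : c ≠ 0) (z : ℍ) {k : ℕ} (hk : 3 ≤ k) :
    (periodPairOf c hc z).G k = (c ^ k)⁻¹ * (2 * riemannZeta k * E hk z) := by
  set L := periodPairOf c hc z with hL
  have h1 : L.G k = ∑' x : ℤ × ℤ, (((x.1 : ℂ) * (c * z) + (x.2 : ℂ) * c) ^ k)⁻¹ := by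
    unfold PeriodPair.G
    rw [← L.latticeEquivProd.symm.toEquiv.tsum_eq]
    refine tsum_congr fun x => ?_
    simp [PeriodPair.latticeEquiv_symm_apply, hL]
  have h2 : ∀ x : ℤ × ℤ, (((x.1 : ℂ) * (c * z) + (x.2 : ℂ) * c) ^ k)⁻¹
      = (c ^ k)⁻¹ * eisSummand k ![x.1, x.2] z := by
    intro x
    simp only [eisSummand, Matrix.cons_val_zero, Matrix.cons_val_one, zpow_neg, zpow_natCast]
    rw [← mul_inv, ← mul_pow]
    congr 2
    ring
  have h3 : ∑' x : ℤ × ℤ, eisSummand k ![x.1, x.2] z = ∑' v : Fin 2 → ℤ, eisSummand k v z := by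
    rw [← (finTwoArrowEquiv ℤ).symm.tsum_eq]
    rfl
  rw [h1]
  simp_rw [h2]
  rw [tsum_mul_left, h3, tsum_eisSummand_eq_riemannZeta_mul_eisensteinSeries hk z]
  have h4 : E hk z = (1 / 2 : ℂ) * eisensteinSeries (N := 1) 0 k z := by
    rw [show E hk z = (1 / 2 : ℂ) • eisensteinSeriesSIF (N := 1) 0 k z from rfl,
      eisensteinSeriesSIF_apply 0 k z, smul_eq_mul]
  rw [h4]
  ring

end Fermat.Agent.LevelOne_helper80
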