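/-
Level-one valence package, part 1 (helper80).

`eval_homogeneous`: if `E₄ z₂ = lam ^ 4 * E₄ z₁` and `E₆ z₂ = lam ^ 6 * E₆ z₁` then every
level-one modular form `f` of weight `k` satisfies `f z₂ = lam ^ k * f z₁`.
(This is the "spanning" half of `M_* = ℂ[E₄, E₆]`, phrased pointwise.)
-/
import Mathlib

set_option autoImplicit false

open UpperHalfPlane ModularForm EisensteinSeries MatrixGroups ModularFormClass

namespace Fermat.Agent.LevelOne_helper80

/-- Every even `k ≥ 4` is of the form `4a + 6b`. -/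
theorem exists_four_mul_add_six_mul {k : ℕ} (hk : 4 ≤ k) (hk2 : Even k) :
    ∃ a b : ℕ, 4 * a + 6 * b = k := by
  obtain ⟨m, rfl⟩ := hk2
  rcases Nat.even_or_odd m with ⟨n, rfl⟩ | ⟨n, rfl⟩
  · exact ⟨n, 0, by ring⟩
  · refine ⟨n - 1, 1, ?_⟩
    omega

/-- The monomial `E₄ ^ a * E₆ ^ b` as a modular form of weight `k = 4a + 6b`. -/
noncomputable def monomialForm (a b : ℕ) {k : ℕ} (h : 4 * a + 6 * b = k) :
    ModularForm 𝒮ℒ (k : ℤ) :=
  ModularForm.mcast (by subst h; push_cast; ring) ((E₄.pow a).mul (E₆.pow b))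

theorem monomialForm_apply (a b : ℕ) {k : ℕ} (h : 4 * a + 6 * b = k) (z : ℍ) :
    monomialForm a b h z = E₄ z ^ a * E₆ z ^ b := by
  simp [monomialForm, ModularForm.mcast_apply]

theorem monomialForm_coeff_zero (a b : ℕ) {k : ℕ} (h : 4 * a + 6 * b = k) :
    (qExpansion 1 (monomialForm a b h)).coeff 0 = 1 := by
  have h1 : (monomialForm a b h : ℍ → ℂ) = ((E₄.pow a).mul (E₆.pow b) : ℍ → ℂ) := rfl
  rw [h1, ModularForm.qExpansion_mul one_pos one_mem_strictPeriods_SL,
    ModularForm.qExpansion_pow one_pos one_mem_strictPeriods_SL,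
    ModularForm.qExpansion_pow one_pos one_mem_strictPeriods_SL]
  have e4 : PowerSeries.constantCoeff (qExpansion 1 E₄) = 1 := by
    rw [← PowerSeries.coeff_zero_eq_constantCoeff_apply]; exact E_qExpansion_coeff_zero _ ⟨2, rfl⟩
  have e6 : PowerSeries.constantCoeff (qExpansion 1 E₆) = 1 := by
    rw [← PowerSeries.coeff_zero_eq_constantCoeff_apply]; exact E_qExpansion_coeff_zero _ ⟨3, rfl⟩
  simp [e4, e6]

theorem discriminant_homogeneous {z₁ z₂ : ℍ} {lam : ℂ}
    (h4 : E₄ z₂ = lam ^ 4 * E₄ z₁) (h6 : E₆ z₂ = lam ^ 6 * E₆ z₁) :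
    discriminant z₂ = lam ^ 12 * discriminant z₁ := by
  rw [discriminant_eq_E₄_cube_sub_E₆_sq, discriminant_eq_E₄_cube_sub_E₆_sq, h4, h6]
  ring

/-- If `(E₄, E₆)` at `z₂` is the `lam`-rescaling of `(E₄, E₆)` at `z₁`, then every level-one
modular form of weight `k` takes at `z₂` the value `lam ^ k` times its value at `z₁`. -/
theorem eval_homogeneous {z₁ z₂ : ℍ} {lam : ℂ}
    (h4 : E₄ z₂ = lam ^ 4 * E₄ z₁) (h6 : E₆ z₂ = lam ^ 6 * E₆ z₁) :
    ∀ (k : ℕ) (f : ModularForm 𝒮ℒ (k : ℤ)), f z₂ = lam ^ k * f z₁ := by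
  intro k
  induction k using Nat.strong_induction_on with
  | _ k ih =>
  intro f
  rcases Nat.even_or_odd k with hk2 | hk2
  swap
  · have : f = 0 := levelOne_odd_weight_eq_zero (by exact_mod_cast hk2) f
    simp [this]
  rcases lt_or_ge k 4 with hk | hk
  · have hk' : k = 0 ∨ k = 2 := by obtain ⟨m, rfl⟩ := hk2; omega
    rcases hk' with rfl | rfl
    · obtain ⟨c, hc⟩ := levelOne_weight_zero_const (F := ModularForm 𝒮ℒ ((0 : ℕ) : ℤ)) f
      simp [hc]
    · have : f = 0 := rank_zero_iff_forall_zero.mp levelOne_weight_two_rank_zero f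
      simp [this]
  · obtain ⟨a, b, hab⟩ := exists_four_mul_add_six_mul hk hk2
    have hcusp := sub_smul_isCuspForm f (monomialForm a b hab) (monomialForm_coeff_zero a b hab)
    rw [isCuspForm_iff_coeffZero_eq_zero] at hcusp
    set c := (qExpansion 1 f).coeff 0 with hc
    set F := f - c • monomialForm a b hab with hF
    set D := CuspForm.discriminantEquiv (toCuspForm F hcusp) with hD
    have key : ∀ z : ℍ, f z = c * (E₄ z ^ a * E₆ z ^ b) + discriminant z * D z := by
      intro z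
      have h1 : discriminant z * D z = F z := by
        rw [hD, discriminant_mul_discriminantEquiv_apply, toCuspForm_apply]
      rw [h1, hF]
      simp [monomialForm_apply]
    have hDz : (12 ≤ k ∧ D z₂ = lam ^ (k - 12) * D z₁) ∨ (D z₂ = 0 ∧ D z₁ = 0) := by
      rcases lt_or_ge k 12 with hk12 | hk12
      · right
        have : (D : ℍ → ℂ) = 0 := levelOne_neg_weight_eq_zero (by omega) D
        simp [this]
      · left
        refine ⟨hk12, ?_⟩
        have e : ((k : ℤ) - 12) = ((k - 12 : ℕ) : ℤ) := by omega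
        have := ih (k - 12) (by omega) (ModularForm.mcast e D)
        simpa [ModularForm.mcast_apply] using this
    rw [key z₂, key z₁, discriminant_homogeneous h4 h6, h4, h6]
    have e1 : (lam ^ 4 * E₄ z₁) ^ a * (lam ^ 6 * E₆ z₁) ^ b
        = lam ^ k * (E₄ z₁ ^ a * E₆ z₁ ^ b) := by
      rw [← hab]; ring
    rw [e1]
    rcases hDz with ⟨hk12, hDz⟩ | ⟨hDz2, hDz1⟩
    · rw [hDz]
      have e2 : lam ^ 12 * lam ^ (k - 12) = lam ^ k := by rw [← pow_add]; congr 1; omega
      linear_combination (discriminant z₁ * D z₁) * e2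
    · rw [hDz2, hDz1]
      ring

end Fermat.Agent.LevelOne_helper80
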