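/-
Level-one valence package, part 2 (helper80).

`lattice_eq_of_G_eq`: two period lattices with the same Eisenstein sums `G k` (all `k ≥ 3`)
are equal.  Proof: the Weierstrass `℘`-functions have the same Laurent expansion at `0`, hence
agree as meromorphic functions on `ℂ`, hence have the same poles.
-/
import Mathlib

set_option autoImplicit false

open Filter Topology

namespace Fermat.Agent.LevelOne_helper80

open PeriodPair

theorem weierstrassPExcept_zero_zero (L : PeriodPair) : ℘[L - (0 : ℂ)] 0 = 0 := by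
  unfold PeriodPair.weierstrassPExcept
  have : ∀ l : L.lattice, (if (l : ℂ) = 0 then (0 : ℂ) else 1 / (0 - (l : ℂ)) ^ 2 - 1 / (l : ℂ) ^ 2) = 0 := by
    intro l
    split_ifs
    · rfl
    · simp
  simp only [this, tsum_zero]

/-- Away from nothing: `℘[L] z = ℘[L - 0] z + 1 / z ^ 2` for every `z`. -/
theorem weierstrassP_eq_except_zero_add (L : PeriodPair) (z : ℂ) :
    ℘[L] z = ℘[L - (0 : ℂ)] z + 1 / z ^ 2 := by
  have := L.weierstrassPExcept_add (0 : L.lattice) z
  simpa using this.symm

theorem weierstrassPExcept_zero_eventuallyEq (L L' : PeriodPair)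
    (h : ∀ k, 3 ≤ k → L.G k = L'.G k) :
    ℘[L - (0 : ℂ)] =ᶠ[𝓝 0] ℘[L' - (0 : ℂ)] := by
  have h1 := L.hasFPowerSeriesAt_weierstrassPExcept 0
  have h2 := L'.hasFPowerSeriesAt_weierstrassPExcept 0
  have hcoef : (fun i : ℕ => if i = 0 then ℘[L - (0 : ℂ)] 0 else ((i : ℂ) + 1) * L.sumInvPow 0 (i + 2))
      = (fun i : ℕ => if i = 0 then ℘[L' - (0 : ℂ)] 0 else ((i : ℂ) + 1) * L'.sumInvPow 0 (i + 2)) := by
    funext i
    by_cases hi : i = 0
    · simp only [hi, if_true, weierstrassPExcept_zero_zero]
    · simp only [hi, if_false, PeriodPair.sumInvPow_zero]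
      rw [h (i + 2) (by omega)]
  rw [hcoef] at h1
  filter_upwards [h1.eventually_hasSum_sub, h2.eventually_hasSum_sub] with y hy1 hy2
  exact hy1.unique hy2

theorem weierstrassP_eventuallyEq (L L' : PeriodPair)
    (h : ∀ k, 3 ≤ k → L.G k = L'.G k) :
    ℘[L] =ᶠ[𝓝 0] ℘[L'] := by
  filter_upwards [weierstrassPExcept_zero_eventuallyEq L L' h] with z hz
  rw [weierstrassP_eq_except_zero_add, weierstrassP_eq_except_zero_add, hz]

theorem lattice_le_of_G_eq (L L' : PeriodPair)
    (h : ∀ k, 3 ≤ k → L.G k = L'.G k) : L.lattice ≤ L'.lattice := by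
  intro l hl
  by_contra hl'
  -- the difference is meromorphic and vanishes near `0`
  set f : ℂ → ℂ := ℘[L] + (-℘[L']) with hf
  have hmero : Meromorphic f := L.meromorphic_weierstrassP.add L'.meromorphic_weierstrassP.neg
  have h0 : meromorphicOrderAt f 0 = ⊤ := by
    rw [meromorphicOrderAt_eq_top_iff]
    have := weierstrassP_eventuallyEq L L' h
    refine (this.filter_mono nhdsWithin_le_nhds).mono ?_
    intro z hz
    simp [hf, hz]
  have hall : ∀ u, meromorphicOrderAt f u = ⊤ := by
    by_contra hne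
    have hne' : ∃ u, meromorphicOrderAt f u ≠ ⊤ := not_forall.mp hne
    have := (hmero.exists_meromorphicOrderAt_ne_top_iff_forall).1 hne' 0
    exact this h0
  have hord : meromorphicOrderAt f l = -2 := by
    rw [hf, meromorphicOrderAt_add_eq_left_of_lt (L'.meromorphic_weierstrassP.neg l)]
    · exact L.order_weierstrassP l hl
    · rw [L.order_weierstrassP l hl, ← meromorphicOrderAt_neg]
      have hneg : ((-2 : ℤ) : WithTop ℤ) = -2 := by norm_num
      have hlt : (-2 : WithTop ℤ) < 0 := by
        rw [← hneg]; exact_mod_cast (by norm_num : (-2 : ℤ) < 0)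
      exact lt_of_lt_of_le hlt (L'.analyticOnNhd_weierstrassP l hl').meromorphicOrderAt_nonneg
  rw [hall l] at hord
  have hneg : ((-2 : ℤ) : WithTop ℤ) = -2 := by norm_num
  rw [← hneg] at hord
  exact WithTop.top_ne_coe hord

/-- Two period lattices with the same Eisenstein sums `G k`, `k ≥ 3`, coincide. -/
theorem lattice_eq_of_G_eq (L L' : PeriodPair)
    (h : ∀ k, 3 ≤ k → L.G k = L'.G k) : L.lattice = L'.lattice :=
  le_antisymm (lattice_le_of_G_eq L L' h) (lattice_le_of_G_eq L' L fun k hk => (h k hk).symm)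

end Fermat.Agent.LevelOne_helper80
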