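/-
Level-one valence package, part 4 (helper80).

If the lattices `ℤ z₂ + ℤ` and `c (ℤ z₁ + ℤ)` coincide, then `z₂ = γ • z₁` for some
`γ ∈ SL(2, ℤ)`.
-/
import Mathlib
import Fermat.Agent.LevelOne_helper80.GEisenstein

set_option autoImplicit false

open UpperHalfPlane MatrixGroups

namespace Fermat.Agent.LevelOne_helper80

theorem int_indep_uhp (z : ℍ) {m n : ℤ} (h : (m : ℂ) * z + n = 0) : m = 0 ∧ n = 0 := by
  have him := congrArg Complex.im h
  simp at him
  have hm : m = 0 := by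
    rcases him with h' | h'
    · exact h'
    · exact absurd h' z.im_ne_zero
  subst hm
  simp at h
  exact ⟨rfl, h⟩

theorem exists_smul_eq_of_lattice_eq (c : ℂ) (hc : c ≠ 0) (z₁ z₂ : ℍ)
    (h : (periodPairOf 1 one_ne_zero z₂).lattice = (periodPairOf c hc z₁).lattice) :
    ∃ γ : SL(2, ℤ), γ • z₁ = z₂ := by
  set L₂ := periodPairOf 1 one_ne_zero z₂ with hL₂
  set L₁ := periodPairOf c hc z₁ with hL₁
  -- express the generators of each lattice in the other
  obtain ⟨a, b, hab⟩ : ∃ a b : ℤ, (a : ℂ) * (c * z₁) + b * c = z₂ := by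
    have : L₂.ω₁ ∈ L₁.lattice := h ▸ L₂.ω₁_mem_lattice
    simpa [PeriodPair.mem_lattice, hL₁, hL₂] using this
  obtain ⟨c', d, hcd⟩ : ∃ c' d : ℤ, (c' : ℂ) * (c * z₁) + d * c = 1 := by
    have : L₂.ω₂ ∈ L₁.lattice := h ▸ L₂.ω₂_mem_lattice
    simpa [PeriodPair.mem_lattice, hL₁, hL₂] using this
  obtain ⟨a', b', hab'⟩ : ∃ a' b' : ℤ, (a' : ℂ) * z₂ + b' = c * z₁ := by
    have : L₁.ω₁ ∈ L₂.lattice := h ▸ L₁.ω₁_mem_lattice
    simpa [PeriodPair.mem_lattice, hL₁, hL₂] using this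
  obtain ⟨c'', d', hcd'⟩ : ∃ c'' d' : ℤ, (c'' : ℂ) * z₂ + d' = c := by
    have : L₁.ω₂ ∈ L₂.lattice := h ▸ L₁.ω₂_mem_lattice
    simpa [PeriodPair.mem_lattice, hL₁, hL₂] using this
  -- the product of the two integer matrices is the identity
  have e1 : ((a * a' + b * c'' - 1 : ℤ) : ℂ) * z₂ + ((a * b' + b * d' : ℤ) : ℂ) = 0 := by
    push_cast
    have : (a : ℂ) * ((a' : ℂ) * z₂ + b') + b * ((c'' : ℂ) * z₂ + d') = z₂ := by
      rw [hab', hcd']; exact hab
    linear_combination this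
  have e2 : ((c' * a' + d * c'' : ℤ) : ℂ) * z₂ + ((c' * b' + d * d' - 1 : ℤ) : ℂ) = 0 := by
    push_cast
    have : (c' : ℂ) * ((a' : ℂ) * z₂ + b') + d * ((c'' : ℂ) * z₂ + d') = 1 := by
      rw [hab', hcd']; exact hcd
    linear_combination this
  obtain ⟨f1, f2⟩ := int_indep_uhp z₂ e1
  obtain ⟨f3, f4⟩ := int_indep_uhp z₂ e2
  have hdet : (a * d - b * c') * (a' * d' - b' * c'') = 1 := by
    linear_combination (c' * b' + d * d') * f1 + f4 - (c' * a' + d * c'') * f2
  -- sign of the determinant via imaginary parts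
  set w : ℂ := (c' : ℂ) * z₁ + d with hw
  have hcw : c * w = 1 := by rw [hw]; linear_combination hcd
  have hw0 : w ≠ 0 := by
    intro h0; rw [h0, mul_zero] at hcw; exact zero_ne_one hcw
  have hnum : (a : ℂ) * z₁ + b = z₂ * w := by
    have : c * ((a : ℂ) * z₁ + b) = c * (z₂ * w) := by
      rw [← mul_assoc, mul_comm c (z₂ : ℂ), mul_assoc, hcw, mul_one]
      linear_combination hab
    exact mul_left_cancel₀ hc this
  have hpos : 0 < ((a * d - b * c' : ℤ) : ℝ) := by
    have h1 : (((a : ℂ) * z₁ + b) * (starRingEnd ℂ) w).im = ((a * d - b * c' : ℤ) : ℝ) * z₁.im := by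
      rw [hw]
      simp only [map_add, map_mul, map_intCast, Complex.add_im, Complex.mul_im,
        Complex.mul_re, Complex.add_re, Complex.intCast_re, Complex.intCast_im, Complex.conj_re,
        Complex.conj_im, UpperHalfPlane.coe_im, UpperHalfPlane.coe_re]
      push_cast
      ring
    have h2 : (((a : ℂ) * z₁ + b) * (starRingEnd ℂ) w).im = z₂.im * Complex.normSq w := by
      rw [hnum, mul_assoc, Complex.mul_conj]
      simp [Complex.mul_im]
    have h3 : 0 < z₂.im * Complex.normSq w := mul_pos z₂.im_pos (Complex.normSq_pos.mpr hw0)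
    rw [← h2, h1] at h3
    exact (pos_iff_pos_of_mul_pos h3).mpr z₁.im_pos
  have hpos' : 0 < a * d - b * c' := by exact_mod_cast hpos
  have hdet1 : a * d - b * c' = 1 := by
    rcases Int.eq_one_or_neg_one_of_mul_eq_one hdet with h1 | h1
    · exact h1
    · omega
  let γ : SL(2, ℤ) := ⟨!![a, b; c', d], by rw [Matrix.det_fin_two_of]; exact hdet1⟩
  have g00 : γ 0 0 = a := rfl
  have g01 : γ 0 1 = b := rfl
  have g10 : γ 1 0 = c' := rfl
  have g11 : γ 1 1 = d := rfl
  refine ⟨γ, ?_⟩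
  apply UpperHalfPlane.ext
  rw [coe_specialLinearGroup_apply γ z₁, g00, g01, g10, g11]
  simp only [algebraMap_int_eq, eq_intCast, Complex.ofReal_intCast]
  rw [← hw, hnum, mul_div_assoc, div_self hw0, mul_one]

end Fermat.Agent.LevelOne_helper80
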