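/-
Level-one valence package, part 5 (helper80).

The `j`-invariant `jInv z = E₄ z ^ 3 / Δ z` on the upper half plane separates `SL(2, ℤ)`-orbits:
`jInv z₁ = jInv z₂ → ∃ γ : SL(2, ℤ), γ • z₁ = z₂`.
-/
import Mathlib
import Fermat.Agent.LevelOne_helper80.Homogeneity
import Fermat.Agent.LevelOne_helper80.LatticeOfG
import Fermat.Agent.LevelOne_helper80.GEisenstein
import Fermat.Agent.LevelOne_helper80.LatticeSL2

set_option autoImplicit false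

open UpperHalfPlane ModularForm EisensteinSeries MatrixGroups

namespace Fermat.Agent.LevelOne_helper80

/-- The modular `j`-invariant, normalised as `E₄ ^ 3 / Δ` (so `j = q⁻¹ + 744 + …`). -/
noncomputable def jInv (z : ℍ) : ℂ := E₄ z ^ 3 / discriminant z

theorem jInv_def (z : ℍ) : jInv z = E₄ z ^ 3 / discriminant z := rfl

theorem E₄_cube_sub_E₆_sq_ne_zero (z : ℍ) : E₄ z ^ 3 - E₆ z ^ 2 ≠ 0 := by
  intro h
  have := discriminant_eq_E₄_cube_sub_E₆_sq z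
  rw [h, zero_div] at this
  exact discriminant_ne_zero z this

/-- Pure algebra: if `a₁³ b₂² = a₂³ b₁²` with both "discriminants" nonzero, then
`(a₂, b₂) = (lam⁴ a₁, lam⁶ b₁)` for some `lam ≠ 0`. -/
theorem exists_scaling {a₁ b₁ a₂ b₂ : ℂ} (h₁ : a₁ ^ 3 - b₁ ^ 2 ≠ 0) (h₂ : a₂ ^ 3 - b₂ ^ 2 ≠ 0)
    (h : a₁ ^ 3 * b₂ ^ 2 = a₂ ^ 3 * b₁ ^ 2) :
    ∃ lam : ℂ, lam ≠ 0 ∧ a₂ = lam ^ 4 * a₁ ∧ b₂ = lam ^ 6 * b₁ := by
  by_cases ha₁ : a₁ = 0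
  · -- then `b₁ ≠ 0`, `a₂ = 0`, `b₂ ≠ 0`
    subst ha₁
    have hb₁ : b₁ ≠ 0 := by
      intro hb; apply h₁; rw [hb]; ring
    have ha₂ : a₂ = 0 := by
      have : a₂ ^ 3 * b₁ ^ 2 = 0 := by rw [← h]; ring
      rcases mul_eq_zero.mp this with h' | h'
      · exact pow_eq_zero_iff (by norm_num) |>.mp h'
      · exact absurd (pow_eq_zero_iff (by norm_num) |>.mp h') hb₁
    subst ha₂
    have hb₂ : b₂ ≠ 0 := by
      intro hb; apply h₂; rw [hb]; ring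
    obtain ⟨lam, hlam⟩ := IsAlgClosed.exists_pow_nat_eq (b₂ / b₁) (n := 6) (by norm_num)
    refine ⟨lam, ?_, by ring, ?_⟩
    · intro h0; rw [h0] at hlam
      have : b₂ / b₁ = 0 := by rw [← hlam]; ring
      exact div_ne_zero hb₂ hb₁ this
    · rw [hlam]; field_simp
  by_cases hb₁ : b₁ = 0
  · subst hb₁
    have hb₂ : b₂ = 0 := by
      have : a₁ ^ 3 * b₂ ^ 2 = 0 := by rw [h]; ring
      rcases mul_eq_zero.mp this with h' | h'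
      · exact absurd (pow_eq_zero_iff (by norm_num) |>.mp h') ha₁
      · exact pow_eq_zero_iff (by norm_num) |>.mp h'
    subst hb₂
    have ha₂ : a₂ ≠ 0 := by
      intro ha; apply h₂; rw [ha]; ring
    obtain ⟨lam, hlam⟩ := IsAlgClosed.exists_pow_nat_eq (a₂ / a₁) (n := 4) (by norm_num)
    refine ⟨lam, ?_, ?_, by ring⟩
    · intro h0; rw [h0] at hlam
      have : a₂ / a₁ = 0 := by rw [← hlam]; ring
      exact div_ne_zero ha₂ ha₁ this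
    · rw [hlam]; field_simp
  -- generic case
  have ha₂ : a₂ ≠ 0 := by
    intro ha
    have : a₁ ^ 3 * b₂ ^ 2 = 0 := by rw [h, ha]; ring
    rcases mul_eq_zero.mp this with h' | h'
    · exact ha₁ (pow_eq_zero_iff (by norm_num) |>.mp h')
    · have hb : b₂ = 0 := pow_eq_zero_iff (by norm_num) |>.mp h'
      apply h₂; rw [ha, hb]; ring
  have hb₂ : b₂ ≠ 0 := by
    intro hb
    have : a₂ ^ 3 * b₁ ^ 2 = 0 := by rw [← h, hb]; ring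
    rcases mul_eq_zero.mp this with h' | h'
    · exact ha₂ (pow_eq_zero_iff (by norm_num) |>.mp h')
    · exact hb₁ (pow_eq_zero_iff (by norm_num) |>.mp h')
  obtain ⟨lam, hlam⟩ := IsAlgClosed.exists_pow_nat_eq ((b₂ * a₁) / (b₁ * a₂)) (n := 2) (by norm_num)
  have hlam4 : lam ^ 4 = a₂ / a₁ := by
    have : lam ^ 4 = (lam ^ 2) ^ 2 := by ring
    rw [this, hlam]
    field_simp
    linear_combination h
  have hlam6 : lam ^ 6 = b₂ / b₁ := by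
    have : lam ^ 6 = lam ^ 4 * lam ^ 2 := by ring
    rw [this, hlam4, hlam]
    field_simp
  refine ⟨lam, ?_, ?_, ?_⟩
  · intro h0; rw [h0] at hlam4
    have : a₂ / a₁ = 0 := by rw [← hlam4]; ring
    exact div_ne_zero ha₂ ha₁ this
  · rw [hlam4]; field_simp
  · rw [hlam6]; field_simp

theorem exists_scaling_of_jInv_eq {z₁ z₂ : ℍ} (h : jInv z₁ = jInv z₂) :
    ∃ lam : ℂ, lam ≠ 0 ∧ E₄ z₂ = lam ^ 4 * E₄ z₁ ∧ E₆ z₂ = lam ^ 6 * E₆ z₁ := by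
  apply exists_scaling (E₄_cube_sub_E₆_sq_ne_zero z₁) (E₄_cube_sub_E₆_sq_ne_zero z₂)
  have h1 := E₄_cube_sub_E₆_sq_ne_zero z₁
  have h2 := E₄_cube_sub_E₆_sq_ne_zero z₂
  rw [jInv, jInv, discriminant_eq_E₄_cube_sub_E₆_sq, discriminant_eq_E₄_cube_sub_E₆_sq] at h
  rw [div_div_eq_mul_div, div_div_eq_mul_div, div_eq_div_iff h1 h2] at h
  linear_combination (-1 / 1728 : ℂ) * h

/-- **The `j`-invariant separates `SL(2, ℤ)`-orbits.** -/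
theorem exists_smul_eq_of_jInv_eq {z₁ z₂ : ℍ} (h : jInv z₁ = jInv z₂) :
    ∃ γ : SL(2, ℤ), γ • z₁ = z₂ := by
  obtain ⟨lam, hlam, h4, h6⟩ := exists_scaling_of_jInv_eq h
  have hc : lam⁻¹ ≠ 0 := inv_ne_zero hlam
  apply exists_smul_eq_of_lattice_eq lam⁻¹ hc z₁ z₂
  apply lattice_eq_of_G_eq
  intro k hk
  rw [G_periodPairOf 1 one_ne_zero z₂ hk, G_periodPairOf lam⁻¹ hc z₁ hk,
    eval_homogeneous h4 h6 k (E hk)]
  simp only [one_pow, inv_one, one_mul, inv_pow, inv_inv]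
  ring

theorem E₄_smul (γ : SL(2, ℤ)) (z : ℍ) :
    E₄ (γ • z) = denom (γ : GL (Fin 2) ℝ) z ^ (4 : ℤ) * E₄ z :=
  SlashInvariantForm.slash_action_eqn'' E₄ (⟨γ, rfl⟩ : (γ : GL (Fin 2) ℝ) ∈ 𝒮ℒ) z

theorem E₆_smul (γ : SL(2, ℤ)) (z : ℍ) :
    E₆ (γ • z) = denom (γ : GL (Fin 2) ℝ) z ^ (6 : ℤ) * E₆ z :=
  SlashInvariantForm.slash_action_eqn'' E₆ (⟨γ, rfl⟩ : (γ : GL (Fin 2) ℝ) ∈ 𝒮ℒ) z

theorem discriminant_smul (γ : SL(2, ℤ)) (z : ℍ) :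
    discriminant (γ • z) = denom (γ : GL (Fin 2) ℝ) z ^ (12 : ℤ) * discriminant z :=
  SlashInvariantForm.slash_action_eqn'' CuspForm.discriminant
    (⟨γ, rfl⟩ : (γ : GL (Fin 2) ℝ) ∈ 𝒮ℒ) z

theorem jInv_smul (γ : SL(2, ℤ)) (z : ℍ) : jInv (γ • z) = jInv z := by
  have hd : denom (γ : GL (Fin 2) ℝ) z ≠ 0 := denom_ne_zero _ _
  have hΔ := discriminant_ne_zero z
  rw [jInv, jInv, E₄_smul, discriminant_smul]
  have e1 : (denom (γ : GL (Fin 2) ℝ) z ^ (4 : ℤ) * E₄ z) ^ 3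
      = denom (γ : GL (Fin 2) ℝ) z ^ (12 : ℤ) * E₄ z ^ 3 := by
    rw [mul_pow, ← zpow_natCast, ← zpow_mul]; norm_num
  rw [e1, mul_div_mul_left _ _ (zpow_ne_zero _ hd)]

theorem jInv_eq_iff {z₁ z₂ : ℍ} : jInv z₁ = jInv z₂ ↔ ∃ γ : SL(2, ℤ), γ • z₁ = z₂ :=
  ⟨exists_smul_eq_of_jInv_eq, fun ⟨γ, hγ⟩ => by rw [← hγ, jInv_smul]⟩

end Fermat.Agent.LevelOne_helper80
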